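import Fermat.Agent.MUL.S28.ThmA
import Fermat.Agent.MUL.S24.EmbFStab
import Fermat.Agent.MUL.S24.Hol
import Fermat.Agent.MUL.F3.DictC.Field

section MergeWrap_F3_I2_Dict1Aux -- from F3/I2/Dict1Aux.lean

set_option autoImplicit false

namespace Fermat.Agent.F3I2

open UpperHalfPlane ModularForm MatrixGroups Polynomial SlashInvariantForm Filter
open scoped Real Topology Manifold
open Fermat.Agent.S23 ModularCurve
open Fermat.Agent.S28 Fermat.Agent.S28.QExp

/-- A function whose `q`-expansion is `0` vanishes near the cusp `i∞`. -/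
theorem dict1_hasQ_zero_eventually {f : ℍ → ℂ} (h : HasQ f 0) :
    ∃ R : ℝ, ∀ τ : ℍ, R < τ.im → f τ = 0 := by
  obtain ⟨hper, m, hqa, hexp⟩ := h
  rw [mul_zero] at hexp
  have h0 : qExpansion 1 (f * qFun ^ m) = 0 := by
    apply HahnSeries.ofPowerSeries_injective (Γ := ℤ) (R := ℂ)
    rw [hexp, map_zero]
  have hps := hasFPowerSeriesAt_taylor0 hqa
  rw [← qExpansion_eq_taylor0, h0] at hps
  have hz : (FormalMultilinearSeries.ofScalars ℂ fun n => (0 : PowerSeries ℂ).coeff n) = 0 := by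
    ext n; simp
  rw [hz] at hps
  have hev := hps.eventually_eq_zero
  obtain ⟨r, hr, hball⟩ := Metric.eventually_nhds_iff.mp hev
  refine ⟨-Real.log r / (2 * π), fun τ hτ => ?_⟩
  have hq : ‖qFun τ‖ < r := by
    rw [qFun, Function.Periodic.norm_qParam]
    rw [← Real.exp_log hr]
    apply Real.exp_lt_exp.mpr
    have hpi : (0 : ℝ) < 2 * π := by positivity
    rw [div_lt_iff₀ hpi] at hτ
    have : (τ : ℂ).im = τ.im := rfl
    rw [this, div_one]
    linarith
  have h1 := hball (by simpa [dist_zero_right] using hq)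
  have hper' : IsPer (f * qFun ^ m) := hper.mul (isPer_qFun.pow m)
  have e := Function.Periodic.eq_cuspFunction one_ne_zero hper' (τ : ℂ)
  have e2 : cuspFunction 1 (f * qFun ^ m) (qFun τ) = (f * qFun ^ m) τ := by
    rw [qFun]
    refine e.trans ?_
    simp [Function.comp]
  rw [e2] at h1
  have h2 : f τ * qFun τ ^ m = 0 := h1
  rcases mul_eq_zero.mp h2 with h3 | h3
  · exact h3
  · exact absurd h3 (pow_ne_zero _ (qFun_ne_zero τ))

open Fermat.Agent.S24 in
/-- A holomorphic function on `ℍ` vanishing near the cusp vanishes identically. -/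
theorem dict1_isHol_eq_zero_of_eventually {f : Fermat.Agent.S24.Fun} (hf : IsHol f) (R : ℝ)
    (h : ∀ τ : ℍ, R < τ.im → f τ = 0) : f = 0 := by
  have hpos : (0 : ℝ) < |R| + 1 := by positivity
  set τ₁ : ℍ := ⟨⟨0, |R| + 1⟩, hpos⟩ with hτ₁
  apply hf.eq_zero_of_analyticOrderAt_eq_top τ₁
  rw [analyticOrderAt_eq_top]
  have hopen : IsOpen {z : ℂ | max R 0 < z.im} := isOpen_lt continuous_const Complex.continuous_im
  have hmem : (τ₁ : ℂ) ∈ {z : ℂ | max R 0 < z.im} := by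
    show max R 0 < (τ₁ : ℂ).im
    have : (τ₁ : ℂ).im = |R| + 1 := rfl
    rw [this]
    rcases le_total R 0 with h0 | h0
    · rw [max_eq_right h0]; exact hpos
    · rw [max_eq_left h0, abs_of_nonneg h0]; linarith
  filter_upwards [hopen.mem_nhds hmem] with z hz
  have hz0 : 0 < z.im := lt_of_le_of_lt (le_max_right R 0) hz
  have hzR : R < z.im := lt_of_le_of_lt (le_max_left R 0) hz
  have := h ⟨z, hz0⟩ hzR
  rw [ofComplex_apply_of_im_pos hz0]
  exact this

end Fermat.Agent.F3I2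

namespace Fermat.Agent.F3I2

open UpperHalfPlane ModularForm MatrixGroups Polynomial SlashInvariantForm Filter
open scoped Real Topology Manifold
open Fermat.Agent.S23 ModularCurve
open Fermat.Agent.S28 Fermat.Agent.S28.QExp

/-- Every translate of `F` by a coset of `Γ₀(N)` in `SL(2,ℤ)` is `F ∣ γ` for some
`γ ∈ SL(2,ℤ)`; the trivial coset corresponds to `N ∣ γ 1 0`. -/
theorem dict1_exists_SL_of_coset (N : ℕ) [NeZero N] {k : ℤ} (F : ModularForm (G0 N) k)
    (q : Q N) :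
    ∃ γ : SL(2, ℤ), quotientFunc F q = (⇑F) ∣[k] γ ∧
      (q = QuotientGroup.mk 1 ↔ (N : ℤ) ∣ γ 1 0) := by
  induction q using Quotient.inductionOn with
  | h r =>
    obtain ⟨γ, hγ⟩ := (r⁻¹).2
    refine ⟨γ, ?_, ?_⟩
    · rw [quotientFunc_mk, SL_slash]
      congr 1
      rw [← Subgroup.coe_inv]
      exact hγ.symm
    · have h1 : (Quotient.mk _ r : Q N) = QuotientGroup.mk r := rfl
      rw [h1, QuotientGroup.eq, Subgroup.mem_subgroupOf, ← mapGL_mem_G0_iff, hγ]
      simp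

/-- `Δ (γ τ) = (c τ + d) ^ 12 Δ (τ)`. -/
theorem dict1_discriminant_smul (γ : SL(2, ℤ)) (τ : ℍ) :
    discriminant (γ • τ) = discriminant τ * denom γ τ ^ (12 : ℤ) := by
  have h := congrFun (wp3_discriminant_slash γ) τ
  rw [← SL_slash, SL_slash_apply] at h
  have hd : denom γ τ ≠ 0 := denom_ne_zero _ τ
  rw [← h, mul_assoc, ← zpow_add₀ hd]
  simp

/-- The two descriptions of the point `N τ`. -/
theorem dict1_heckeDiag_smul_eq_scale (d : ℕ) [NeZero d] (τ : ℍ) :
    heckeDiagMatrix d • τ = Fermat.Agent.S24.scale d τ := by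
  apply UpperHalfPlane.ext
  rw [coe_heckeDiagMatrix_smul (NeZero.ne d), Fermat.Agent.S24.coe_scale]

/-- The translates of `j_N = v / Δ ^ N` are the functions `γ⁻¹ • j_N`. -/
theorem dict1_translate_eq (N : ℕ) [NeZero N] (v : ModularForm (G0 N) (12 * (N : ℤ)))
    (hv : ∀ τ : ℍ, v τ = E₄ (heckeDiagMatrix N • τ) ^ 3 * discriminant τ ^ N /
      discriminant (heckeDiagMatrix N • τ)) (γ : SL(2, ℤ)) (τ : ℍ) :
    ((⇑v) ∣[12 * (N : ℤ)] γ) τ / discriminant τ ^ N = (γ⁻¹ • Fermat.Agent.S24.jd N) τ := by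
  have hd : denom γ τ ≠ 0 := denom_ne_zero _ τ
  have hΔ : discriminant τ ≠ 0 := discriminant_ne_zero τ
  have hΔ' : discriminant (heckeDiagMatrix N • (γ • τ)) ≠ 0 := discriminant_ne_zero _
  have hR : (γ⁻¹ • Fermat.Agent.S24.jd N) τ =
      E₄ (heckeDiagMatrix N • (γ • τ)) ^ 3 / discriminant (heckeDiagMatrix N • (γ • τ)) := by
    show Fermat.Agent.S24.jFun (Fermat.Agent.S24.scale N ((γ⁻¹)⁻¹ • τ)) = _
    rw [inv_inv, ← dict1_heckeDiag_smul_eq_scale]
    rfl
  rw [hR, SL_slash_apply, hv (γ • τ), dict1_discriminant_smul γ τ, mul_pow, ← zpow_natCast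
    (denom γ τ ^ (12 : ℤ)), ← zpow_mul]
  have e : denom γ τ ^ (-(12 * (N : ℤ))) = (denom γ τ ^ ((12 : ℤ) * (N : ℤ)))⁻¹ := by
    rw [zpow_neg]
  rw [e]
  have h2 : denom γ τ ^ ((12 : ℤ) * (N : ℤ)) ≠ 0 := zpow_ne_zero _ hd
  have h3 : discriminant τ ^ N ≠ 0 := pow_ne_zero _ hΔ
  field_simp

end Fermat.Agent.F3I2

namespace Fermat.Agent.F3I2

open UpperHalfPlane ModularForm MatrixGroups Polynomial SlashInvariantForm Filter
open scoped Real Topology Manifold
open Fermat.Agent.S23 ModularCurve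
open Fermat.Agent.S28 Fermat.Agent.S28.QExp
open Fermat.Agent.S24 (IsHol jd)

/-- For `γ ∉ Γ₀(N)` the function `j_N - γ⁻¹ • j_N` is not zero. -/
theorem dict1_jd_sub_ne_zero (N : ℕ) [NeZero N] (γ : SL(2, ℤ)) (h : ¬ (N : ℤ) ∣ γ 1 0) :
    jd N - γ⁻¹ • jd N ≠ 0 := by
  intro h0
  have h1 : γ⁻¹ • jd N = jd N := (sub_eq_zero.mp h0).symm
  rw [Fermat.Agent.S24.smul_jd_eq_iff] at h1
  have h2 := inv_mem h1
  rw [inv_inv] at h2
  exact h (Fermat.Agent.S24.EmbFStab.dvd_of_mem_Gamma0 h2)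

theorem dict1_fun_prod_apply {ι : Type*} (s : Finset ι) (f : ι → Fermat.Agent.S24.Fun) (τ : ℍ) :
    (∏ i ∈ s, f i) τ = ∏ i ∈ s, f i τ := by
  classical
  induction s using Finset.induction_on with
  | empty => simp
  | insert a s ha ih =>
    rw [Finset.prod_insert ha, Finset.prod_insert ha, Fermat.Agent.S24.Fun.mul_apply, ih]

theorem dict1_isHol_one : IsHol (1 : Fermat.Agent.S24.Fun) :=
  (mdifferentiable_const : MDifferentiable 𝓘(ℂ) 𝓘(ℂ) (fun _ : ℍ => (1 : ℂ)))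

theorem dict1_isHol_sub {f g : Fermat.Agent.S24.Fun} (hf : IsHol f) (hg : IsHol g) :
    IsHol (f - g) :=
  MDifferentiable.sub hf hg

/-- A finite product of nonzero holomorphic functions on `ℍ` is a nonzero holomorphic
function. -/
theorem dict1_isHol_prod_ne_zero {ι : Type*} (s : Finset ι) (f : ι → Fermat.Agent.S24.Fun)
    (hf : ∀ i ∈ s, IsHol (f i)) (hne : ∀ i ∈ s, f i ≠ 0) :
    IsHol (∏ i ∈ s, f i) ∧ ∏ i ∈ s, f i ≠ 0 := by
  classical
  induction s using Finset.induction_on with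
  | empty =>
    refine ⟨by simpa using dict1_isHol_one, ?_⟩
    rw [Finset.prod_empty]
    intro h
    have := congrFun h ⟨Complex.I, by simp⟩
    exact one_ne_zero this
  | insert a s ha ih =>
    obtain ⟨h1, h2⟩ := ih (fun i hi => hf i (Finset.mem_insert_of_mem hi))
      (fun i hi => hne i (Finset.mem_insert_of_mem hi))
    rw [Finset.prod_insert ha]
    have ha1 := hf a (Finset.mem_insert_self a s)
    refine ⟨ha1.mul h1, fun h => ?_⟩
    rcases ha1.eq_zero_or_eq_zero_of_mul_eq_zero h1 h with h3 | h3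
    · exact hne a (Finset.mem_insert_self a s) h3
    · exact h2 h3

/-- **Separability.**  The derivative of the characteristic polynomial of `j_N = v / Δ ^ N`
does not vanish identically at `j_N` near the cusp. -/
theorem dict1_exists_derivative_ne_zero (N : ℕ) [NeZero N]
    (v : ModularForm (G0 N) (12 * (N : ℤ)))
    (hv : ∀ τ : ℍ, v τ = E₄ (heckeDiagMatrix N • τ) ^ 3 * discriminant τ ^ N /
      discriminant (heckeDiagMatrix N • τ)) (R : ℝ) :
    ∃ τ : ℍ, R < τ.im ∧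
      (derivative (rootPoly (fun q : Q N =>
        quotientFunc v q τ / discriminant τ ^ N))).eval (v τ / discriminant τ ^ N) ≠ 0 := by
  classical
  choose γ hγ hγ1 using dict1_exists_SL_of_coset N v
  set i₀ : Q N := QuotientGroup.mk 1 with hi₀
  set D : Fermat.Agent.S24.Fun :=
    ∏ q ∈ (Finset.univ : Finset (Q N)).erase i₀, (jd N - (γ q)⁻¹ • jd N) with hD
  have hDprop := dict1_isHol_prod_ne_zero ((Finset.univ : Finset (Q N)).erase i₀)
    (fun q => jd N - (γ q)⁻¹ • jd N)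
    (fun q _ => dict1_isHol_sub (Fermat.Agent.S24.isHol_jd N)
      ((Fermat.Agent.S24.isHol_jd N).sl_smul _))
    (fun q hq => dict1_jd_sub_ne_zero N (γ q) fun h =>
      (Finset.mem_erase.mp hq).1 ((hγ1 q).mpr h))
  by_contra hcon
  push Not at hcon
  apply hDprop.2
  refine dict1_isHol_eq_zero_of_eventually hDprop.1 R fun τ hτ => ?_
  have h1 := hcon τ hτ
  have ht0 : quotientFunc v i₀ τ = v τ := congrFun (quotientFunc_one (N := N) v) τ
  have hjd : v τ / discriminant τ ^ N = jd N τ := by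
    have := dict1_translate_eq N v hv 1 τ
    rw [inv_one, one_smul] at this
    rw [← this]
    congr 1
    rw [SL_slash_apply]
    simp
  have h2 := rootPoly_derivative_eval
    (fun q : Q N => quotientFunc v q τ / discriminant τ ^ N) i₀
  simp only [ht0] at h2
  rw [h2] at h1
  rw [dict1_fun_prod_apply, ← h1]
  refine Finset.prod_congr rfl fun q _ => ?_
  rw [Fermat.Agent.S24.Fun.sub_apply, hjd, hγ q, dict1_translate_eq N v hv (γ q) τ]

end Fermat.Agent.F3I2
end MergeWrap_F3_I2_Dict1Aux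

section MergeWrap_F3_I2_Dict1 -- from F3/I2/Dict1.lean

set_option autoImplicit false

namespace Fermat.Agent.F3I2

open UpperHalfPlane ModularForm MatrixGroups Polynomial SlashInvariantForm Filter
open scoped Real Topology Manifold
open Fermat.Agent.S23 ModularCurve
open Fermat.Agent.S28 Fermat.Agent.S28.QExp

/-- The function field of `X₀(N)` over `ℂ`, inside `ℂ((q))`. -/
noncomputable abbrev dict1FC (N : ℕ) : IntermediateField ℂ (LaurentSeries ℂ) :=
  laurentBaseChange ℂ (modularFunctionFieldFull N)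

/-- The `q`-expansion at `∞` of a function on `ℍ`, as a Laurent series. -/
noncomputable def dict1QF (f : ℍ → ℂ) : LaurentSeries ℂ :=
  HahnSeries.ofPowerSeries ℤ ℂ (qExpansion 1 f)

/-- The `q`-expansion at `∞` of a modular form, as a Laurent series. -/
noncomputable def dict1QL {N : ℕ} {k : ℤ} (A : ModularForm (G0 N) k) : LaurentSeries ℂ :=
  dict1QF A

theorem dict1QL_def {N : ℕ} {k : ℤ} (A : ModularForm (G0 N) k) :
    dict1QL A = HahnSeries.ofPowerSeries ℤ ℂ (qExpansion 1 A) := rfl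

theorem dict1_hasQ_of_isMF {N : ℕ} {k : ℤ} {f : ℍ → ℂ} (hf : IsMF (G0 N) k f) :
    HasQ f (dict1QF f) := HasQ.of_isMF hf

theorem dict1_hasQ_modularForm {N : ℕ} {k : ℤ} (A : ModularForm (G0 N) k) :
    HasQ A (dict1QL A) := HasQ.of_modularForm A

/-! ### Membership in `F_ℂ` -/

theorem dict1_toC_jqd_mem (N : ℕ) [NeZero N] {d : ℕ} [NeZero d] (hd : d ∣ N) :
    toC (qExpand ℚ d jq) ∈ dict1FC N :=
  coeffEmb_mem_laurentBaseChange ℂ (jqd_mem_full N hd)

theorem dict1_toC_jq_mem (N : ℕ) [NeZero N] : toC jq ∈ dict1FC N := by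
  have h := dict1_toC_jqd_mem N (one_dvd N)
  rwa [qExpand_one_apply] at h

theorem dict1_evJ_mem (N : ℕ) [NeZero N] (p : Polynomial ℂ) :
    evJ (toC jq) p ∈ dict1FC N := by
  show (aeval (toC jq) p) ∈ dict1FC N
  rw [aeval_eq_sum_range]
  refine sum_mem fun i _ => ?_
  rw [Algebra.smul_def]
  exact mul_mem ((dict1FC N).algebraMap_mem _) (pow_mem (dict1_toC_jq_mem N) _)

theorem dict1_biv_mem (N : ℕ) [NeZero N] (P : Polynomial (Polynomial ℂ)) :
    P.eval₂ (evJ (toC jq)) (toC (qExpand ℚ N jq)) ∈ dict1FC N := by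
  rw [eval₂_eq_sum_range]
  refine sum_mem fun i _ => ?_
  exact mul_mem (dict1_evJ_mem N _) (pow_mem (dict1_toC_jqd_mem N dvd_rfl) _)

/-! ### The core: `G / Δ ^ d ∈ F_ℂ` -/

/-- **Core of (D1), onto.**  For `G ∈ M_{12 d}(Γ₀(N))` the expansion of `G / Δ ^ d` lies in
`F_ℂ`. -/
theorem dict1_core (N : ℕ) [NeZero N] (d : ℕ) (G : ModularForm (G0 N) (12 * (d : ℤ))) :
    dict1QL G * deltaInvC ^ d ∈ dict1FC N := by
  classical
  obtain ⟨v, hv⟩ := exists_vd N N dvd_rfl
  obtain ⟨c, -, -, hc⟩ := wp4_exists_charPoly N N v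
  set n := Fintype.card (Q N) with hn
  obtain ⟨A, hA⟩ := wp11_exists_certificate_of_coeffs N N d v G c hc
  set χ := wp11Poly n c with hχ
  have hmap : ∀ τ : ℍ, χ.map (evalRingHom (wp4J τ)) =
      rootPoly (fun q : Q N => quotientFunc v q τ / discriminant τ ^ N) := fun τ =>
    wp11Poly_map_eq_rootPoly _ c (wp4J τ) (hc τ)
  have hJ := thmA_hasQ_wp4J
  have hU : HasQ (fun τ => v τ / discriminant τ ^ N) (toC (qExpand ℚ N jq)) := by
    refine (thmA_hasQ_jd N).congr fun τ => ?_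
    rw [hv τ, wp4J]
    have h1 := discriminant_ne_zero τ
    have h2 := discriminant_ne_zero (heckeDiagMatrix N • τ)
    field_simp
  have hG : HasQ (fun τ => G τ / discriminant τ ^ d) (dict1QL G * deltaInvC ^ d) := by
    refine ((dict1_hasQ_modularForm G).mul (hasQ_inv_discriminant.pow d)).congr fun τ => ?_
    simp only [Pi.mul_apply, Pi.pow_apply, Pi.inv_apply]
    rw [div_eq_mul_inv, inv_pow]
  have hL := thmA_hasQ_biv hJ hU (derivative χ)
  have hR := thmA_hasQ_biv hJ hU A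
  have hprod : dict1QL G * deltaInvC ^ d *
      (derivative χ).eval₂ (evJ (toC jq)) (toC (qExpand ℚ N jq)) =
      A.eval₂ (evJ (toC jq)) (toC (qExpand ℚ N jq)) :=
    (hG.mul hL).eq_of_eq hR fun τ => by
      rw [Pi.mul_apply]
      exact hA τ
  -- separability
  have hS : (derivative χ).eval₂ (evJ (toC jq)) (toC (qExpand ℚ N jq)) ≠ 0 := by
    intro h0
    rw [h0] at hL
    obtain ⟨R, hR0⟩ := dict1_hasQ_zero_eventually hL
    obtain ⟨τ, hτ, hne⟩ := dict1_exists_derivative_ne_zero N v hv R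
    apply hne
    have := hR0 τ hτ
    rwa [← derivative_map, hmap τ] at this
  have hmem : dict1QL G * deltaInvC ^ d =
      A.eval₂ (evJ (toC jq)) (toC (qExpand ℚ N jq)) /
        (derivative χ).eval₂ (evJ (toC jq)) (toC (qExpand ℚ N jq)) := by
    rw [eq_div_iff hS, hprod]
  rw [hmem]
  exact div_mem (dict1_biv_mem N A) (dict1_biv_mem N (derivative χ))

/-! ### Arithmetic of `q`-expansions of modular forms -/

theorem dict1_isHol_of_isMF {N : ℕ} {k : ℤ} {f : ℍ → ℂ} (hf : IsMF (G0 N) k f) :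
    Fermat.Agent.S24.IsHol f := by
  obtain ⟨F, rfl⟩ := hf
  exact F.holo'

/-- A modular form with vanishing `q`-expansion vanishes. -/
theorem dict1_eq_zero_of_qF {N : ℕ} {k : ℤ} {f : ℍ → ℂ} (hf : IsMF (G0 N) k f)
    (h : dict1QF f = 0) : f = 0 := by
  have hq := dict1_hasQ_of_isMF hf
  rw [h] at hq
  obtain ⟨R, hR⟩ := dict1_hasQ_zero_eventually hq
  exact dict1_isHol_eq_zero_of_eventually (dict1_isHol_of_isMF hf) R hR

theorem dict1QF_ne_zero {N : ℕ} {k : ℤ} {f : ℍ → ℂ} (hf : IsMF (G0 N) k f) (h : f ≠ 0) :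
    dict1QF f ≠ 0 := fun h0 => h (dict1_eq_zero_of_qF hf h0)

/-- The `q`-expansion of a nonzero modular form is nonzero. -/
theorem dict1QL_ne_zero {N : ℕ} {k : ℤ} (B : ModularForm (G0 N) k) (hB : B ≠ 0) :
    dict1QL B ≠ 0 := by
  refine dict1QF_ne_zero (IsMF.of B) fun h => hB ?_
  ext τ
  exact congrFun h τ

theorem dict1QF_zero : dict1QF 0 = 0 := by
  have h := (hasQ_zero).unique (HasQ.of_qa (isPer_const 0) QA.zero)
  exact h.symm

theorem dict1QF_mul {N : ℕ} {k₁ k₂ : ℤ} {a b : ℍ → ℂ} (ha : IsMF (G0 N) k₁ a)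
    (hb : IsMF (G0 N) k₂ b) : dict1QF (a * b) = dict1QF a * dict1QF b :=
  (dict1_hasQ_of_isMF (ha.mul hb)).unique ((dict1_hasQ_of_isMF ha).mul (dict1_hasQ_of_isMF hb))

theorem dict1QF_add {N : ℕ} {k : ℤ} {a b : ℍ → ℂ} (ha : IsMF (G0 N) k a)
    (hb : IsMF (G0 N) k b) : dict1QF (a + b) = dict1QF a + dict1QF b :=
  (dict1_hasQ_of_isMF (ha.add hb)).unique ((dict1_hasQ_of_isMF ha).add (dict1_hasQ_of_isMF hb))

theorem dict1QF_neg {N : ℕ} {k : ℤ} {a : ℍ → ℂ} (ha : IsMF (G0 N) k a) :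
    dict1QF (-a) = -dict1QF a :=
  (dict1_hasQ_of_isMF ha.neg).unique (dict1_hasQ_of_isMF ha).neg

theorem dict1QF_pow {N : ℕ} {k : ℤ} {a : ℍ → ℂ} (ha : IsMF (G0 N) k a) (n : ℕ) :
    dict1QF (a ^ n) = dict1QF a ^ n :=
  (dict1_hasQ_of_isMF (ha.pow n)).unique ((dict1_hasQ_of_isMF ha).pow n)

theorem dict1_isMF_discriminant (N : ℕ) : IsMF (G0 N) 12 (discriminant : ℍ → ℂ) :=
  (IsMF.of (ModularFormClass.modularForm CuspForm.discriminant)).mono (G0_le_SL N)

theorem dict1QF_discriminant : dict1QF (discriminant : ℍ → ℂ) = deltaC :=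
  (dict1_hasQ_of_isMF (dict1_isMF_discriminant 1)).unique hasQ_discriminant

theorem dict1_mul_ne_zero {N : ℕ} {k₁ k₂ : ℤ} {a b : ℍ → ℂ} (ha : IsMF (G0 N) k₁ a)
    (hb : IsMF (G0 N) k₂ b) (ha0 : a ≠ 0) (hb0 : b ≠ 0) : a * b ≠ 0 := by
  intro h
  rcases (dict1_isHol_of_isMF ha).eq_zero_or_eq_zero_of_mul_eq_zero (dict1_isHol_of_isMF hb) h
    with h1 | h1
  · exact ha0 h1
  · exact hb0 h1

theorem dict1_deltaInvC_ne_zero : deltaInvC ≠ 0 :=
  right_ne_zero_of_mul_eq_one deltaC_mul_deltaInvC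

/-! ### (D1), onto -/

/-- **(D1), onto**, function form. -/
theorem dict1_onto_fun (N : ℕ) [NeZero N] {k : ℤ} {a b : ℍ → ℂ} (ha : IsMF (G0 N) k a)
    (hb : IsMF (G0 N) k b) (hb0 : b ≠ 0) :
    ∃ x ∈ dict1FC N, x * dict1QF b = dict1QF a := by
  set e : ℕ := k.natAbs with he
  have hke : 0 ≤ k + (e : ℤ) := by
    omega
  obtain ⟨d, hd⟩ := Int.eq_ofNat_of_zero_le hke
  have hΔ := dict1_isMF_discriminant N
  have h1 : IsMF (G0 N) (12 * (d : ℤ)) (a * b ^ 11 * discriminant ^ e) :=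
    ((ha.mul (hb.pow 11)).mul (hΔ.pow e)).cast (by rw [← hd]; push_cast; ring)
  have h2 : IsMF (G0 N) (12 * (d : ℤ)) (b ^ 12 * discriminant ^ e) :=
    ((hb.pow 12).mul (hΔ.pow e)).cast (by rw [← hd]; push_cast; ring)
  obtain ⟨G₁, hG₁⟩ := h1
  obtain ⟨G₂, hG₂⟩ := h2
  have m1 := dict1_core N d G₁
  have m2 := dict1_core N d G₂
  have q1 : dict1QL G₁ = dict1QF a * dict1QF b ^ 11 * deltaC ^ e := by
    show dict1QF G₁ = _
    rw [hG₁, dict1QF_mul (ha.mul (hb.pow 11)) (hΔ.pow e), dict1QF_mul ha (hb.pow 11),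
      dict1QF_pow hb, dict1QF_pow hΔ, dict1QF_discriminant]
  have q2 : dict1QL G₂ = dict1QF b ^ 12 * deltaC ^ e := by
    show dict1QF G₂ = _
    rw [hG₂, dict1QF_mul (hb.pow 12) (hΔ.pow e), dict1QF_pow hb, dict1QF_pow hΔ,
      dict1QF_discriminant]
  refine ⟨_, div_mem m1 m2, ?_⟩
  rw [q1, q2]
  have hqb : dict1QF b ≠ 0 := dict1QF_ne_zero hb hb0
  have hδ : deltaC ≠ 0 := deltaC_ne_zero
  have hδi : deltaInvC ≠ 0 := dict1_deltaInvC_ne_zero
  field_simp

/-- **(D1), onto.**  The ratio of the `q`-expansions of two modular forms of the same weight on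
`Γ₀(N)` lies in the function field `F_ℂ = ℂ(j(q^d) : d ∣ N)`. -/
theorem dict1_onto (N : ℕ) [NeZero N] {k : ℤ} (A B : ModularForm (G0 N) k) (hB : B ≠ 0) :
    ∃ x ∈ laurentBaseChange ℂ (modularFunctionFieldFull N), x * dict1QL B = dict1QL A := by
  refine dict1_onto_fun N (IsMF.of A) (IsMF.of B) fun h => hB ?_
  ext τ
  exact congrFun h τ

/-! ### (D1), into -/

/-- `x` is the ratio of the expansions of two modular forms of the same weight on `Γ₀(N)`. -/
def Dict1IsRatio (N : ℕ) (x : LaurentSeries ℂ) : Prop :=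
  ∃ (k : ℤ) (a b : ℍ → ℂ), IsMF (G0 N) k a ∧ IsMF (G0 N) k b ∧ b ≠ 0 ∧
    x * dict1QF b = dict1QF a

theorem dict1_one_ne_zero : (1 : ℍ → ℂ) ≠ 0 := fun h =>
  one_ne_zero (congrFun h ⟨Complex.I, by simp⟩)

theorem dict1QF_one : dict1QF (1 : ℍ → ℂ) = 1 :=
  (HasQ.of_qa isPer_one QA.one).unique hasQ_one

theorem Dict1IsRatio.const (N : ℕ) (c : ℂ) :
    Dict1IsRatio N (algebraMap ℂ (LaurentSeries ℂ) c) := by
  refine ⟨0, c • (1 : ℍ → ℂ), 1, IsMF.one.smul c, IsMF.one, dict1_one_ne_zero, ?_⟩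
  rw [dict1QF_one, mul_one]
  have h1 : HasQ (c • (1 : ℍ → ℂ)) (HahnSeries.C c) :=
    (hasQ_const c).congr fun τ => by simp
  have h2 := dict1_hasQ_of_isMF (N := N) (IsMF.one.smul c)
  rw [← h1.unique h2, algebraMap_eq_single_zero]
  rfl

theorem Dict1IsRatio.zero (N : ℕ) : Dict1IsRatio N 0 := by
  simpa using Dict1IsRatio.const N 0

theorem Dict1IsRatio.one (N : ℕ) : Dict1IsRatio N 1 := by
  simpa using Dict1IsRatio.const N 1

theorem Dict1IsRatio.jqd (N : ℕ) [NeZero N] {d : ℕ} [NeZero d] (hd : d ∣ N) :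
    Dict1IsRatio N (toC (qExpand ℚ d jq)) := by
  obtain ⟨v, hv⟩ := exists_vd N d hd
  have hΔ := (dict1_isMF_discriminant N).pow d
  refine ⟨12 * (d : ℤ), v, discriminant ^ d, IsMF.of v, hΔ, ?_, ?_⟩
  · intro h
    have := congrFun h ⟨Complex.I, by simp⟩
    exact pow_ne_zero _ (discriminant_ne_zero _) this
  · refine ((thmA_hasQ_jd d).mul (dict1_hasQ_of_isMF hΔ)).eq_of_eq
      (dict1_hasQ_of_isMF (IsMF.of v)) fun τ => ?_
    rw [Pi.mul_apply, hv τ, wp4J, Pi.pow_apply]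
    have h1 := discriminant_ne_zero τ
    have h2 := discriminant_ne_zero (heckeDiagMatrix d • τ)
    field_simp

theorem Dict1IsRatio.add {N : ℕ} {x y : LaurentSeries ℂ} (hx : Dict1IsRatio N x)
    (hy : Dict1IsRatio N y) : Dict1IsRatio N (x + y) := by
  obtain ⟨k, a, b, ha, hb, hb0, h⟩ := hx
  obtain ⟨k', a', b', ha', hb', hb0', h'⟩ := hy
  have h1 : IsMF (G0 N) (k + k') (a * b') := ha.mul hb'
  have h2 : IsMF (G0 N) (k + k') (a' * b) := (ha'.mul hb).cast (add_comm _ _)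
  refine ⟨k + k', a * b' + a' * b, b * b', h1.add h2, hb.mul hb',
    dict1_mul_ne_zero hb hb' hb0 hb0', ?_⟩
  rw [dict1QF_add h1 h2, dict1QF_mul ha hb', dict1QF_mul ha' hb, dict1QF_mul hb hb', ← h, ← h']
  ring

theorem Dict1IsRatio.mul {N : ℕ} {x y : LaurentSeries ℂ} (hx : Dict1IsRatio N x)
    (hy : Dict1IsRatio N y) : Dict1IsRatio N (x * y) := by
  obtain ⟨k, a, b, ha, hb, hb0, h⟩ := hx
  obtain ⟨k', a', b', ha', hb', hb0', h'⟩ := hy
  refine ⟨k + k', a * a', b * b', ha.mul ha', hb.mul hb',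
    dict1_mul_ne_zero hb hb' hb0 hb0', ?_⟩
  rw [dict1QF_mul ha ha', dict1QF_mul hb hb', ← h, ← h']
  ring

theorem Dict1IsRatio.neg {N : ℕ} {x : LaurentSeries ℂ} (hx : Dict1IsRatio N x) :
    Dict1IsRatio N (-x) := by
  obtain ⟨k, a, b, ha, hb, hb0, h⟩ := hx
  refine ⟨k, -a, b, ha.neg, hb, hb0, ?_⟩
  rw [dict1QF_neg ha, ← h]
  ring

theorem Dict1IsRatio.inv {N : ℕ} {x : LaurentSeries ℂ} (hx : Dict1IsRatio N x) :
    Dict1IsRatio N x⁻¹ := by
  rcases eq_or_ne x 0 with rfl | hx0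
  · simpa using Dict1IsRatio.zero N
  obtain ⟨k, a, b, ha, hb, hb0, h⟩ := hx
  have hqb := dict1QF_ne_zero hb hb0
  have ha0 : a ≠ 0 := by
    rintro rfl
    rw [dict1QF_zero] at h
    rcases mul_eq_zero.mp h with h1 | h1
    · exact hx0 h1
    · exact hqb h1
  refine ⟨k, b, a, hb, ha, ha0, ?_⟩
  rw [← h, ← mul_assoc, inv_mul_cancel₀ hx0, one_mul]

theorem Dict1IsRatio.of_coeffEmb (N : ℕ) [NeZero N] {x₀ : LaurentSeries ℚ}
    (hx₀ : x₀ ∈ modularFunctionFieldFull N) :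
    Dict1IsRatio N (ModularCurve.coeffEmb ℂ x₀) := by
  rw [modularFunctionFieldFull] at hx₀
  induction hx₀ using IntermediateField.adjoin_induction with
  | mem x hx =>
    obtain ⟨d, hd0, hd, rfl⟩ := hx
    exact Dict1IsRatio.jqd N hd
  | algebraMap r =>
    have : ModularCurve.coeffEmb ℂ (algebraMap ℚ (LaurentSeries ℚ) r) =
        algebraMap ℂ (LaurentSeries ℂ) (algebraMap ℚ ℂ r) := by
      rw [algebraMap_eq_single_zero, algebraMap_eq_single_zero, ModularCurve.coeffEmb,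
        coeffMap_single]
    rw [this]
    exact Dict1IsRatio.const N _
  | add x y _ _ hx hy => rw [map_add]; exact hx.add hy
  | inv x _ hx => rw [map_inv₀]; exact hx.inv
  | mul x y _ _ hx hy => rw [map_mul]; exact hx.mul hy

theorem Dict1IsRatio.of_mem (N : ℕ) [NeZero N] {x : LaurentSeries ℂ} (hx : x ∈ dict1FC N) :
    Dict1IsRatio N x := by
  rw [mem_laurentBaseChange_iff] at hx
  induction hx using Subfield.closure_induction with
  | mem x hx =>
    rcases hx with ⟨c, rfl⟩ | ⟨x₀, hx₀, rfl⟩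
    · exact Dict1IsRatio.const N c
    · exact Dict1IsRatio.of_coeffEmb N hx₀
  | one => exact Dict1IsRatio.one N
  | add x y _ _ hx hy => exact hx.add hy
  | neg x _ hx => exact hx.neg
  | inv x _ hx => exact hx.inv
  | mul x y _ _ hx hy => exact hx.mul hy

/-- The elements of `F_ℂ` are exactly the ratios of `q`-expansions of modular forms of equal
weight on `Γ₀(N)`. -/
theorem dict1_mem_iff (N : ℕ) [NeZero N] (x : LaurentSeries ℂ) :
    x ∈ dict1FC N ↔ Dict1IsRatio N x := by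
  refine ⟨Dict1IsRatio.of_mem N, ?_⟩
  rintro ⟨k, a, b, ha, hb, hb0, h⟩
  obtain ⟨y, hy, hyb⟩ := dict1_onto_fun N ha hb hb0
  have hqb := dict1QF_ne_zero hb hb0
  have : x = y := mul_right_cancel₀ hqb (h.trans hyb.symm)
  rwa [this]

/-- **(D1), into.**  Every element of the function field `F_ℂ = ℂ(j(q^d) : d ∣ N)` is the ratio
of the `q`-expansions of two modular forms of the same weight on `Γ₀(N)`. -/
theorem dict1_into (N : ℕ) [NeZero N] {x : LaurentSeries ℂ}
    (hx : x ∈ laurentBaseChange ℂ (modularFunctionFieldFull N)) :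
    ∃ (k : ℤ) (A B : ModularForm (G0 N) k), B ≠ 0 ∧ x * dict1QL B = dict1QL A := by
  obtain ⟨k, a, b, ⟨A, rfl⟩, ⟨B, rfl⟩, hb0, h⟩ := Dict1IsRatio.of_mem N hx
  refine ⟨k, A, B, ?_, h⟩
  rintro rfl
  exact hb0 rfl

/-- Two representations of the same element of `F_ℂ` define the same meromorphic function. -/
theorem dict1_ratio_unique {N : ℕ} {k k' : ℤ} {x : LaurentSeries ℂ}
    (A B : ModularForm (G0 N) k) (A' B' : ModularForm (G0 N) k')
    (h : x * dict1QL B = dict1QL A) (h' : x * dict1QL B' = dict1QL A') (τ : ℍ) :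
    A τ * B' τ = A' τ * B τ := by
  have h1 : IsMF (G0 N) (k + k') ((A : ℍ → ℂ) * B') := (IsMF.of A).mul (IsMF.of B')
  have h2 : IsMF (G0 N) (k + k') ((A' : ℍ → ℂ) * B) :=
    ((IsMF.of A').mul (IsMF.of B)).cast (add_comm _ _)
  have h3 : dict1QF ((A : ℍ → ℂ) * B' - (A' : ℍ → ℂ) * B) = 0 := by
    rw [sub_eq_add_neg, dict1QF_add h1 h2.neg, dict1QF_neg h2,
      dict1QF_mul (IsMF.of A) (IsMF.of B'), dict1QF_mul (IsMF.of A') (IsMF.of B)]
    show dict1QL A * dict1QL B' + -(dict1QL A' * dict1QL B) = 0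
    rw [← h, ← h']
    ring
  have h4 := dict1_eq_zero_of_qF (h1.sub h2) h3
  have := congrFun h4 τ
  simpa [sub_eq_zero] using this

end Fermat.Agent.F3I2
end MergeWrap_F3_I2_Dict1
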