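import Mathlib
import Fermat.Agent.MUL.F3.I2.Dict1
import Fermat.Agent.MUL.Orig.Lib.Kronecker.Formal
import Fermat.Agent.MUL.F3.I2.Dict1Final
import Fermat.Agent.MUL.F3.I2.NormC.ProdDefsC
import Fermat.Agent.MUL.F3.DictC.EmbFStab
import Fermat.Agent.MUL.F3.I2.NormC.NormProdC
import Fermat.Agent.MUL.F3.I2.Kappa.KappaC
import Fermat.Agent.MUL.F3.I2.Descent.Uncond
import Fermat.Agent.MUL.F3.Dict.RatioCuspFinal
import Fermat.Agent.MUL.F3.Dict.ChartsC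
import Fermat.Agent.MUL.Lib.HeckeInputs.Complex
import Fermat.Agent.MUL.F3.EigenclassGlue
import Fermat.Agent.MUL.Lib.Petersson.Main

section MergeWrap_F3_I2_Dict3Formal -- from F3/I2/Dict3Formal.lean

set_option autoImplicit false

namespace Fermat.Agent.F3I2

open UpperHalfPlane ModularForm MatrixGroups Polynomial SlashInvariantForm Filter
open scoped Real Topology Manifold
open Fermat.Agent.S23 ModularCurve
open Fermat.Agent.S28 Fermat.Agent.S28.QExp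
open Fermat.Agent.Kronecker (scaleL scaleL_coeff)

/-- `q (τ + r) = e^{2πi r} q (τ)`. -/
theorem dict3_qFun_vadd (r : ℝ) (τ : ℍ) :
    qFun (r +ᵥ τ) = Complex.exp (2 * π * Complex.I * r) * qFun τ := by
  simp only [qFun, Function.Periodic.qParam, UpperHalfPlane.coe_vadd]
  rw [← Complex.exp_add]
  congr 1
  push_cast
  ring

theorem dict3_isPer_translate {f : ℍ → ℂ} (hf : IsPer f) (r : ℝ) :
    IsPer (fun τ => f (r +ᵥ τ)) := by
  rw [isPer_iff] at hf ⊢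
  intro τ
  have : r +ᵥ ((1 : ℝ) +ᵥ τ) = (1 : ℝ) +ᵥ (r +ᵥ τ) := by
    rw [vadd_vadd, vadd_vadd, add_comm]
  rw [this, hf]

/-- Taylor expansion of `q ↦ a * c (z q)`. -/
theorem dict3_taylor0_scale {c : ℂ → ℂ} (hc : AnalyticAt ℂ c 0) (a z : ℂ) (hz : ‖z‖ = 1) :
    AnalyticAt ℂ (fun q => a * c (z * q)) 0 ∧
      taylor0 (fun q => a * c (z * q)) =
        PowerSeries.mk fun n => a * z ^ n * (taylor0 c).coeff n := by
  obtain ⟨r, hr0, hr1, hsum⟩ := exists_hasSum_of_analyticAt hc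
  have key : HasFPowerSeriesAt (fun q => a * c (z * q)) (FormalMultilinearSeries.ofScalars ℂ
      (fun n => a * z ^ n * (taylor0 c).coeff n)) 0 := by
    refine hasFPowerSeriesAt_of_hasSum hr0 fun q hq => ?_
    have hzq : ‖z * q‖ < r := by rw [norm_mul, hz, one_mul]; exact hq
    have h1 := (hsum (z * q) hzq).mul_left a
    have e : (fun n : ℕ => a * z ^ n * (taylor0 c).coeff n * q ^ n) =
        fun n : ℕ => a * ((taylor0 c).coeff n * (z * q) ^ n) := by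
      funext n
      rw [mul_pow]
      ring
    rw [e]
    exact h1
  exact ⟨key.analyticAt, taylor0_eq_of_hasFPowerSeriesAt key⟩

/-- **Translation.**  If `f` has expansion `s` then `τ ↦ f (τ + r)` has expansion
`s (e^{2πi r} q)`. -/
theorem dict3_hasQ_translate {f : ℍ → ℂ} {s : LaurentSeries ℂ} (hf : HasQ f s) (r : ℝ)
    (z : ℂˣ) (hz : (z : ℂ) = Complex.exp (2 * π * Complex.I * r)) :
    HasQ (fun τ => f (r +ᵥ τ)) (scaleL z s) := by
  obtain ⟨hper, m, hqa, hexp⟩ := hf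
  have hznorm : ‖(z : ℂ)‖ = 1 := by
    rw [hz, Complex.norm_exp]
    simp
  set F : ℍ → ℂ := f * qFun ^ m with hF
  have hperF : IsPer F := hper.mul (isPer_qFun.pow m)
  set c₀ : ℂ → ℂ := cuspFunction 1 F with hc₀
  set c : ℂ → ℂ := fun q => ((z : ℂ) ^ m)⁻¹ * c₀ ((z : ℂ) * q) with hc
  obtain ⟨hcan, hctay⟩ := dict3_taylor0_scale (c := c₀) hqa ((z : ℂ) ^ m)⁻¹ z hznorm
  have hval : ∀ τ : ℍ, ((fun τ : ℍ => f (r +ᵥ τ)) * qFun ^ m) τ = c (qFun τ) := by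
    intro τ
    have e1 : c₀ ((z : ℂ) * qFun τ) = F (r +ᵥ τ) := by
      have := Function.Periodic.eq_cuspFunction one_ne_zero hperF ((r +ᵥ τ : ℍ) : ℂ)
      have h2 : Function.Periodic.qParam 1 ((r +ᵥ τ : ℍ) : ℂ) = (z : ℂ) * qFun τ := by
        have := dict3_qFun_vadd r τ
        rw [qFun] at this
        rw [this, hz, qFun]
      rw [h2] at this
      rw [hc₀]
      refine this.trans ?_
      rw [Function.comp_apply, ofComplex_apply]
    show f (r +ᵥ τ) * (qFun ^ m) τ = ((z : ℂ) ^ m)⁻¹ * c₀ ((z : ℂ) * qFun τ)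
    rw [e1, hF, Pi.mul_apply, Pi.pow_apply, Pi.pow_apply, dict3_qFun_vadd, ← hz, mul_pow]
    have hzm : (z : ℂ) ^ m ≠ 0 := pow_ne_zero _ z.ne_zero
    field_simp
  obtain ⟨hqa', hq'⟩ := qa_of_eq one_pos hcan fun τ _ => hval τ
  refine ⟨dict3_isPer_translate hper r, m, hqa', ?_⟩
  rw [hq', hctay]
  have hexp' : HahnSeries.ofPowerSeries ℤ ℂ (taylor0 c₀) = HahnSeries.single (m : ℤ) 1 * s := hexp
  ext k
  -- coefficient of the right hand side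
  have hR : (HahnSeries.single (m : ℤ) (1 : ℂ) * scaleL z s).coeff k =
      ((z ^ (k - m) : ℂˣ) : ℂ) * s.coeff (k - m) := by
    have := HahnSeries.coeff_single_mul_add (r := (1 : ℂ)) (x := scaleL z s) (a := k - m)
      (b := (m : ℤ))
    rw [sub_add_cancel, one_mul] at this
    rw [this, scaleL_coeff]
  have hS : ∀ k : ℤ, (HahnSeries.ofPowerSeries ℤ ℂ (taylor0 c₀)).coeff k = s.coeff (k - m) := by
    intro k
    rw [hexp']
    have := HahnSeries.coeff_single_mul_add (r := (1 : ℂ)) (x := s) (a := k - m) (b := (m : ℤ))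
    rw [sub_add_cancel, one_mul] at this
    exact this
  rw [hR, ← hS k]
  rcases lt_or_ge k 0 with hk | hk
  · rw [ofPowerSeries_coeff_of_neg _ hk, ofPowerSeries_coeff_of_neg _ hk, mul_zero]
  · obtain ⟨n, rfl⟩ := Int.eq_ofNat_of_zero_le hk
    rw [HahnSeries.ofPowerSeries_apply_coeff, HahnSeries.ofPowerSeries_apply_coeff,
      PowerSeries.coeff_mk]
    congr 1
    rw [zpow_sub, zpow_natCast, zpow_natCast, Units.val_mul, Units.val_pow_eq_pow_val,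
      Units.val_inv_eq_inv_val, Units.val_pow_eq_pow_val]
    ring

end Fermat.Agent.F3I2
end MergeWrap_F3_I2_Dict3Formal

section MergeWrap_F3_I2_Dict3 -- from F3/I2/Dict3.lean

set_option autoImplicit false

namespace Fermat.Agent.F3I2

open UpperHalfPlane ModularForm MatrixGroups Filter CongruenceSubgroup
open scoped Real Topology Manifold ModularForm
open Fermat.Agent.S23 ModularCurve
open Fermat.Agent.S28 Fermat.Agent.S28.QExp
open Fermat.Agent.Kronecker (scaleL scaleL_coeff)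
open P2MW.S_ModularForm_heckeT_slash_eq_self_of_mem_Gamma0.ModularForm.HeckeSlashInvariance

/-- `ζ_ℓ = e^{2πi/ℓ}` as a unit of `ℂ`. -/
noncomputable def dict3Zeta (ℓ : ℕ) : ℂˣ :=
  Units.mk0 (Complex.exp (2 * π * Complex.I / ℓ)) (Complex.exp_ne_zero _)

theorem dict3Zeta_coe (ℓ : ℕ) : (dict3Zeta ℓ : ℂ) = Complex.exp (2 * π * Complex.I / ℓ) := rfl

theorem dict3Zeta_pow_coe (ℓ b : ℕ) :
    ((dict3Zeta ℓ ^ b : ℂˣ) : ℂ) = Complex.exp (2 * π * Complex.I * ((b / ℓ : ℝ) : ℂ)) := by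
  rw [Units.val_pow_eq_pow_val, dict3Zeta_coe, ← Complex.exp_nat_mul]
  congr 1
  push_cast
  ring

/-- The formal operator `s ↦ s(q^{ℓ²}) · ∏_{b<ℓ} s(ζ^b q)`. -/
noncomputable def dict3E (ℓ : ℕ) [NeZero ℓ] (s : LaurentSeries ℂ) : LaurentSeries ℂ :=
  qExpand ℂ (ℓ * ℓ) s * ∏ b ∈ Finset.range ℓ, scaleL (dict3Zeta ℓ ^ b) s

theorem dict3E_mul (ℓ : ℕ) [NeZero ℓ] (s t : LaurentSeries ℂ) :
    dict3E ℓ (s * t) = dict3E ℓ s * dict3E ℓ t := by
  simp only [dict3E, map_mul, Finset.prod_mul_distrib]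
  ring

theorem dict3E_ne_zero (ℓ : ℕ) [NeZero ℓ] {s : LaurentSeries ℂ} (hs : s ≠ 0) :
    dict3E ℓ s ≠ 0 := by
  unfold dict3E
  refine mul_ne_zero ?_ (Finset.prod_ne_zero_iff.mpr fun b _ => ?_)
  · exact fun h => hs (qExpand_injective (R := ℂ) (ℓ * ℓ) (h.trans (map_zero _).symm))
  · intro h
    apply hs
    ext n
    have := congrArg (fun y : LaurentSeries ℂ => y.coeff n) h
    simp only [scaleL_coeff, HahnSeries.coeff_zero] at this
    rcases mul_eq_zero.mp this with h1 | h1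
    · exact absurd h1 (Units.ne_zero _)
    · simpa using h1

/-- The **norm product formula** over `ℂ` (formal `q`-expansion form):
`(T_ℓ y)(q^ℓ) = y(q^{ℓ²}) · ∏_{b<ℓ} y(ζ^b q)` where `T_ℓ y = Norm_{F_{Nℓ}/F_N} (y(q^ℓ))`. -/
def NormProductFormulaC (N ℓ : ℕ) [NeZero N] [NeZero ℓ] : Prop :=
  ∀ y : FC N,
    qExpand ℂ ℓ ((Fermat.Agent.F3G.heckeFun ℂ N ℓ y : FC N) : LaurentSeries ℂ) =
      dict3E ℓ (y : LaurentSeries ℂ)

/-! ### The slash action of the Hecke representatives -/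

theorem dict3_slash_diag (ℓ : ℕ) [NeZero ℓ] (w : ℤ) (f : ℍ → ℂ) (τ : ℍ) :
    (f ∣[w] heckeDiagMatrix ℓ) τ = f (heckeDiagMatrix ℓ • τ) * (ℓ : ℂ) ^ (w - 1) := by
  rw [ModularForm.slash_apply, σ_heckeDiagMatrix, denom_heckeDiagMatrix (NeZero.ne ℓ),
    det_heckeDiagMatrix (NeZero.ne ℓ)]
  simp

theorem dict3_slash_upper (ℓ : ℕ) [NeZero ℓ] (w : ℤ) (f : ℍ → ℂ) (j : ℕ) (τ : ℍ) :
    (f ∣[w] heckeMatrix ℓ j) τ =
      f (heckeMatrix ℓ j • τ) * ((ℓ : ℂ) ^ (w - 1) * (ℓ : ℂ) ^ (-w)) := by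
  rw [ModularForm.slash_apply, σ_heckeMatrix, denom_heckeMatrix (NeZero.ne ℓ),
    det_heckeMatrix (NeZero.ne ℓ)]
  simp [mul_assoc]

theorem dict3_diag_smul_mulUH (ℓ : ℕ) [NeZero ℓ] (τ : ℍ) :
    heckeDiagMatrix ℓ • mulUH ℓ τ = mulUH (ℓ * ℓ) τ := by
  apply UpperHalfPlane.ext
  rw [coe_heckeDiagMatrix_smul (NeZero.ne ℓ), coe_mulUH, coe_mulUH]
  push_cast
  ring

theorem dict3_upper_smul_mulUH (ℓ : ℕ) [NeZero ℓ] (j : ℕ) (τ : ℍ) :
    heckeMatrix ℓ j • mulUH ℓ τ = ((j / ℓ : ℝ) +ᵥ τ) := by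
  apply UpperHalfPlane.ext
  rw [coe_heckeMatrix_smul (NeZero.ne ℓ), coe_mulUH, UpperHalfPlane.coe_vadd]
  have hℓ : (ℓ : ℂ) ≠ 0 := by exact_mod_cast NeZero.ne ℓ
  push_cast
  field_simp
  ring

theorem dict3_prod_range_eq_prod_zmod (ℓ : ℕ) [NeZero ℓ] {M : Type*} [CommMonoid M]
    (F : ℕ → M) : ∏ j ∈ Finset.range ℓ, F j = ∏ x : ZMod ℓ, F x.val := by
  refine Finset.prod_nbij' (fun j : ℕ ↦ (j : ZMod ℓ)) (fun x : ZMod ℓ ↦ x.val)
    (fun _ _ ↦ Finset.mem_univ _) (fun x _ ↦ Finset.mem_range.mpr x.val_lt) (fun j hj ↦ ?_)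
    (fun x _ ↦ ?_) (fun j hj ↦ ?_)
  · exact ZMod.val_cast_of_lt (Finset.mem_range.mp hj)
  · exact ZMod.natCast_zmod_val x
  · rw [ZMod.val_cast_of_lt (Finset.mem_range.mp hj)]

/-- The normalising constant of `∏_i A ∣[w] α_i`. -/
noncomputable def dict3Const (ℓ : ℕ) (w : ℤ) : ℂ :=
  (ℓ : ℂ) ^ (w - 1) * ((ℓ : ℂ) ^ (w - 1) * (ℓ : ℂ) ^ (-w)) ^ ℓ

theorem dict3Const_ne_zero (ℓ : ℕ) [NeZero ℓ] (w : ℤ) : dict3Const ℓ w ≠ 0 := by
  have hℓ : (ℓ : ℂ) ≠ 0 := by exact_mod_cast NeZero.ne ℓ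
  unfold dict3Const
  exact mul_ne_zero (zpow_ne_zero _ hℓ)
    (pow_ne_zero _ (mul_ne_zero (zpow_ne_zero _ hℓ) (zpow_ne_zero _ hℓ)))

/-- The product of the Hecke translates of `f`, evaluated at `ℓ τ`. -/
theorem dict3_prod_slash_mulUH (ℓ : ℕ) [NeZero ℓ] (w : ℤ) (f : ℍ → ℂ) (τ : ℍ) :
    ∏ i : OnePoint (ZMod ℓ), (f ∣[w] heckeRep ℓ i) (mulUH ℓ τ) =
      dict3Const ℓ w * (f (mulUH (ℓ * ℓ) τ) *
        ∏ b ∈ Finset.range ℓ, f ((b / ℓ : ℝ) +ᵥ τ)) := by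
  have h1 : ∏ i : OnePoint (ZMod ℓ), (f ∣[w] heckeRep ℓ i) (mulUH ℓ τ) =
      (f ∣[w] heckeDiagMatrix ℓ) (mulUH ℓ τ) *
        ∏ j : ZMod ℓ, (f ∣[w] heckeMatrix ℓ j.val) (mulUH ℓ τ) :=
    Fintype.prod_option (fun i : OnePoint (ZMod ℓ) => (f ∣[w] heckeRep ℓ i) (mulUH ℓ τ))
  rw [h1, dict3_slash_diag, dict3_diag_smul_mulUH,
    ← dict3_prod_range_eq_prod_zmod ℓ (fun j => (f ∣[w] heckeMatrix ℓ j) (mulUH ℓ τ))]
  simp only [dict3_slash_upper, dict3_upper_smul_mulUH]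
  rw [Finset.prod_mul_distrib, Finset.prod_const, Finset.card_range, dict3Const]
  ring

/-- **Key lemma**: the `q`-expansion of `A' = ∏_i A ∣[w] α_i`. -/
theorem dict3_qExpand_prod (N ℓ : ℕ) [NeZero ℓ] {w w' : ℤ}
    (A : ModularForm (Gamma0 N) w) (A' : ModularForm (Gamma0 N) w')
    (hA' : ⇑A' = fun z => ∏ i : OnePoint (ZMod ℓ), (⇑A ∣[w] heckeRep ℓ i) z) :
    qExpand ℂ ℓ (qLaurent A') = HahnSeries.C (dict3Const ℓ w) * dict3E ℓ (qLaurent A) := by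
  have hA : HasQ A (qLaurent A) := dict1_hasQ_modularForm A
  have h1 : HasQ (fun τ => A' (mulUH ℓ τ)) (qExpand ℂ ℓ (qLaurent A')) :=
    (dict1_hasQ_modularForm A').comp_mulUH ℓ
  have h2 : HasQ ((fun _ : ℍ => dict3Const ℓ w) * ((fun τ => A (mulUH (ℓ * ℓ) τ)) *
      ∏ b ∈ Finset.range ℓ, fun τ => A ((b / ℓ : ℝ) +ᵥ τ)))
      (HahnSeries.C (dict3Const ℓ w) * dict3E ℓ (qLaurent A)) :=
    (hasQ_const _).mul ((hA.comp_mulUH (ℓ * ℓ)).mul
      (HasQ.prod (Finset.range ℓ) fun b _ =>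
        dict3_hasQ_translate hA (b / ℓ : ℝ) (dict3Zeta ℓ ^ b) (dict3Zeta_pow_coe ℓ b)))
  refine h1.eq_of_eq h2 fun τ => ?_
  rw [hA']
  simp only [Pi.mul_apply, Finset.prod_apply]
  exact dict3_prod_slash_mulUH ℓ w A τ

/-- **(D3)** from the norm product formula. -/
theorem dictD3_of_normProductFormula (N ℓ : ℕ) [NeZero N] [NeZero ℓ]
    (h : NormProductFormulaC N ℓ) : DictD3 N ℓ := by
  intro w A B x _ hx w' A' B' hA' hB'
  obtain ⟨hB, hAB⟩ := hx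
  have hqB : qLaurent B ≠ 0 := dict1QL_ne_zero B hB
  have kA := dict3_qExpand_prod N ℓ A A' hA'
  have kB := dict3_qExpand_prod N ℓ B B' hB'
  have hc := dict3Const_ne_zero ℓ w
  have hC : (HahnSeries.C (dict3Const ℓ w) : LaurentSeries ℂ) ≠ 0 := by
    intro h0
    have := congrArg (fun y : LaurentSeries ℂ => y.coeff 0) h0
    simp at this
    exact hc this
  have hB'0 : B' ≠ 0 := by
    rintro rfl
    have h0 : qLaurent (0 : ModularForm (Gamma0 N) w') = 0 := dict1QF_zero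
    rw [h0, map_zero] at kB
    exact mul_ne_zero hC (dict3E_ne_zero ℓ hqB) kB.symm
  refine ⟨hB'0, ?_⟩
  apply qExpand_injective (R := ℂ) ℓ
  rw [map_mul, kA, kB, h x, hAB, dict3E_mul]
  ring

end Fermat.Agent.F3I2
end MergeWrap_F3_I2_Dict3

section MergeWrap_F3_I2_Dict3Glue -- from F3/I2/Dict3Glue.lean

set_option autoImplicit false

namespace Fermat.Agent.F3I2

open ModularCurve
open Fermat.Agent.Kronecker (scaleL scaleL_coeff)

/-- `z ↦ y (z q)` for all `z : ℂ` (zero for `z = 0`). -/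
noncomputable def dict3Scale (y : LaurentSeries ℂ) (z : ℂ) : LaurentSeries ℂ :=
  open Classical in if h : z ≠ 0 then scaleL (Units.mk0 z h) y else 0

theorem dict3Scale_unit (y : LaurentSeries ℂ) (z : ℂˣ) : dict3Scale y (z : ℂ) = scaleL z y := by
  unfold dict3Scale
  rw [dif_pos z.ne_zero]
  have : Units.mk0 (z : ℂ) z.ne_zero = z := Units.ext rfl
  rw [this]

/-- The product `∏_{b<ℓ} y(ζ^b q)` does not depend on the primitive `ℓ`-th root of unity. -/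
theorem dict3_prod_scaleL_eq (ℓ : ℕ) (ζ ζ' : ℂˣ) (hζ : IsPrimitiveRoot ζ ℓ)
    (hζ' : IsPrimitiveRoot ζ' ℓ) (y : LaurentSeries ℂ) :
    ∏ b ∈ Finset.range ℓ, scaleL (ζ ^ b) y = ∏ b ∈ Finset.range ℓ, scaleL (ζ' ^ b) y := by
  have h1 : IsPrimitiveRoot (ζ : ℂ) ℓ := IsPrimitiveRoot.coe_units_iff.mpr hζ
  have h2 : IsPrimitiveRoot (ζ' : ℂ) ℓ := IsPrimitiveRoot.coe_units_iff.mpr hζ'
  have e1 := h1.nthRoots_eq (α := 1) (a := 1) (one_pow ℓ)
  have e2 := h2.nthRoots_eq (α := 1) (a := 1) (one_pow ℓ)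
  have e : (Multiset.range ℓ).map (fun b => (ζ : ℂ) ^ b) =
      (Multiset.range ℓ).map (fun b => (ζ' : ℂ) ^ b) := by
    simpa using e1.symm.trans e2
  have key : ∀ ξ : ℂˣ, ∏ b ∈ Finset.range ℓ, scaleL (ξ ^ b) y =
      (((Multiset.range ℓ).map (fun b => (ξ : ℂ) ^ b)).map (dict3Scale y)).prod := by
    intro ξ
    rw [Multiset.map_map, Finset.prod_eq_multiset_prod]
    congr 1
    refine Multiset.map_congr rfl fun b _ => ?_
    rw [Function.comp_apply, ← Units.val_pow_eq_pow_val, dict3Scale_unit]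
  rw [key ζ, key ζ', e]

/-- Glue: the ported norm product formula gives `NormProductFormulaC`. -/
theorem dict3_normProductFormulaC_of (N ℓ : ℕ) [NeZero N] [NeZero ℓ]
    (h : Fermat.Agent.KroneckerC.NormProductFormula N ℓ) : NormProductFormulaC N ℓ := by
  obtain ⟨ζ, hζ, hy⟩ := h
  intro y
  have h0 : IsPrimitiveRoot (dict3Zeta ℓ) ℓ := by
    rw [← IsPrimitiveRoot.coe_units_iff, dict3Zeta_coe]
    exact Complex.isPrimitiveRoot_exp ℓ (NeZero.ne ℓ)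
  rw [dict3E, ← dict3_prod_scaleL_eq ℓ ζ (dict3Zeta ℓ) hζ h0]
  exact hy y

end Fermat.Agent.F3I2
end MergeWrap_F3_I2_Dict3Glue

section MergeWrap_F3_I2_NormC_ConjGensC -- from F3/I2/NormC/ConjGensC.lean

set_option autoImplicit false

noncomputable section

namespace Fermat.Agent.KroneckerC

open Fermat.Agent.Kronecker

open ModularCurve UpperHalfPlane Fermat.Agent.F3Dict Fermat.Agent.F3Dict.GensExp
open scoped MatrixGroups


/-- The matrix `δ = [[p, q], [N, ℓ]]` of determinant one. -/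
def deltaMat (p q : ℤ) (N ℓ : ℕ) (h : p * ℓ - q * N = 1) : SL(2, ℤ) :=
  ⟨!![p, q; (N : ℤ), (ℓ : ℤ)], by rw [Matrix.det_fin_two_of]; exact h⟩

/-- The matrix `[[ℓ p, d q], [N', 1]]`, `N = d N'`, of determinant one. -/
def deltaMat' (p q : ℤ) (N' d ℓ : ℕ) (h : p * ℓ - q * (d * N' : ℕ) = 1) : SL(2, ℤ) :=
  ⟨!![(ℓ : ℤ) * p, (d : ℤ) * q; (N' : ℤ), 1], by
    rw [Matrix.det_fin_two_of]
    push_cast at h
    linear_combination h⟩

theorem deltaMat_mem_Gamma0 (p q : ℤ) (N ℓ : ℕ) (h : p * ℓ - q * N = 1) :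
    deltaMat p q N ℓ h ∈ CongruenceSubgroup.Gamma0 N := by
  apply EmbFStab.mem_Gamma0_of_dvd
  show (N : ℤ) ∣ (!![p, q; (N : ℤ), (ℓ : ℤ)] : Matrix (Fin 2) (Fin 2) ℤ) 1 0
  simp

theorem scale_deltaMat_smul (p q : ℤ) (N' d ℓ : ℕ) [NeZero d] [NeZero ℓ] [NeZero (d * ℓ)]
    (h : p * ℓ - q * (d * N' : ℕ) = 1) (τ : ℍ) :
    scale (d * ℓ) (deltaMat p q (d * N') ℓ h • τ) =
      deltaMat' p q N' d ℓ h •
        aff d ℓ 0 (Nat.pos_of_ne_zero (NeZero.ne d)) (Nat.pos_of_ne_zero (NeZero.ne ℓ)) τ := by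
  apply UpperHalfPlane.ext
  have h1 := sl2_denom_ne_zero (deltaMat p q (d * N') ℓ h) τ
  have h2 := sl2_denom_ne_zero (deltaMat' p q N' d ℓ h)
    (aff d ℓ 0 (Nat.pos_of_ne_zero (NeZero.ne d)) (Nat.pos_of_ne_zero (NeZero.ne ℓ)) τ)
  have hℓ : (ℓ : ℂ) ≠ 0 := by exact_mod_cast NeZero.ne ℓ
  rw [coe_scale, coe_sl2_smul, coe_sl2_smul, coe_aff]
  rw [coe_aff] at h2
  simp only [deltaMat, deltaMat'] at h1 h2 ⊢
  simp at h1 h2 ⊢
  field_simp

/-- `(δ⁻¹ • j_{dℓ})(τ) = j(dτ/ℓ)`. -/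
theorem deltaMat_inv_smul_jd (p q : ℤ) (N' d ℓ : ℕ) [NeZero d] [NeZero ℓ] [NeZero (d * ℓ)]
    (h : p * ℓ - q * (d * N' : ℕ) = 1) :
    ((deltaMat p q (d * N') ℓ h)⁻¹ • jd (d * ℓ) : Fun) =
      fun τ => jFun (aff d ℓ 0 (Nat.pos_of_ne_zero (NeZero.ne d))
        (Nat.pos_of_ne_zero (NeZero.ne ℓ)) τ) := by
  funext τ
  show jd (d * ℓ) ((deltaMat p q (d * N') ℓ h)⁻¹⁻¹ • τ) = _
  rw [inv_inv]
  show jFun (scale (d * ℓ) (deltaMat p q (d * N') ℓ h • τ)) = _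
  rw [scale_deltaMat_smul, jFun_smul_pt]

/-- `j(dτ/ℓ) = ∑ cₙ u^{d N n}` in the parameter `u = exp(2πiτ/(Nℓ))`. -/
theorem hasExp_jFun_aff (N d ℓ : ℕ) [NeZero N] [NeZero d] [NeZero ℓ] :
    HasExp (N * ℓ) (fun τ => jFun (aff d ℓ 0 (Nat.pos_of_ne_zero (NeZero.ne d))
        (Nat.pos_of_ne_zero (NeZero.ne ℓ)) τ))
      (qExpand Qb (d * N) (jqModC Qb)) := by
  have hN : 0 < N := Nat.pos_of_ne_zero (NeZero.ne N)
  have hd : 0 < d := Nat.pos_of_ne_zero (NeZero.ne d)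
  have hℓ : 0 < ℓ := Nat.pos_of_ne_zero (NeZero.ne ℓ)
  rw [qExpand_jqModC]
  have hφ : ∀ τ : ℍ, uParam 1 (aff d ℓ 0 hd hℓ τ) = iota 1 * uParam (N * ℓ) τ ^ (d * N) := by
    intro τ
    rw [uParam_one_aff (N * ℓ) d ℓ N 0 hd hℓ (mul_comm N ℓ) hN, map_one]
    simp
  exact hasExp_subst hasPExp_jFun (aff d ℓ 0 hd hℓ) 1 iota_one_norm (d * N) (Nat.mul_pos hd hN) hφ



/-- The expansion of `T^b • f`: the substitution `u ↦ z⁻ᵇ u`, `z = exp(2πi/M)`. -/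
theorem hasExp_T_pow_smul (M : ℕ) [NeZero M] (z : Qbˣ)
    (hz : iota (z : Qb) = Complex.exp (2 * Real.pi * Complex.I / M)) {f : Fun}
    {a : LaurentSeries Qb} (hf : HasExp M f a) (b : ℕ) :
    HasExp M (ModularGroup.T ^ b • f) (scaleL (z⁻¹ ^ b) a) := by
  induction b with
  | zero => rw [pow_zero, one_smul, pow_zero, scaleL_one]; exact hf
  | succ b ih =>
    obtain ⟨c, hc, ζ, hζ, hcoeff⟩ := HasExp.T_smul ih
    have hζz : ζ = (z : Qb) := iota_injective (by rw [hζ, hz])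
    have hc' : c = scaleL (z⁻¹ ^ (b + 1)) a := by
      ext n
      rw [hcoeff n, pow_succ', scaleL_mul, hζz, scaleL_coeff z⁻¹, Units.val_zpow_eq_zpow_val,
        Units.val_inv_eq_inv_val]
    rw [pow_succ', mul_smul, ← hc']
    exact hc



/-- The generator `j(q^d)` of the modular function field of level `N` over `ℚ̄`. -/
def jdBar (N d : ℕ) [NeZero d] (hd : d ∣ N) : ↥(Fermat.Agent.F3Dict.FC N) :=
  ⟨coeffEmb Qb (qExpand ℚ d jq), coeffEmb_mem_laurentBaseChange Qb (jqd_mem_full N hd)⟩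

theorem coe_jdBar (N d : ℕ) [NeZero d] (hd : d ∣ N) :
    ((jdBar N d hd : ↥(Fermat.Agent.F3Dict.FC N)) : LaurentSeries Qb) =
      qExpand Qb d (jqModC Qb) := by
  show coeffEmb Qb (qExpand ℚ d jq) = _
  unfold coeffEmb
  rw [coeffMap_qExpand, ← jqModC_rat, coeffMap_jqModC]

/-- Two ring homomorphisms from the modular function field over `ℚ̄` to a field that agree on the
constants and on the generators `j(q^d)`, `d ∣ N`, are equal. -/
theorem ringHom_ext_FBar (N : ℕ) {R : Type*} [Field R]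
    (Φ₁ Φ₂ : ↥(Fermat.Agent.F3Dict.FC N) →+* R)
    (hc : ∀ c : Qb, Φ₁ (algebraMap Qb _ c) = Φ₂ (algebraMap Qb _ c))
    (hg : ∀ (d : ℕ) (_ : NeZero d) (hd : d ∣ N), Φ₁ (jdBar N d hd) = Φ₂ (jdBar N d hd)) :
    Φ₁ = Φ₂ := by
  -- first on the rational function field
  have hrat : ∀ z : LaurentSeries ℚ, z ∈ modularFunctionFieldFull N →
      ∃ h : coeffEmb Qb z ∈ Fermat.Agent.F3Dict.FC N,
        Φ₁ ⟨coeffEmb Qb z, h⟩ = Φ₂ ⟨coeffEmb Qb z, h⟩ := by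
    intro z hz
    unfold modularFunctionFieldFull at hz
    induction hz using IntermediateField.adjoin_induction with
    | mem x hx =>
      obtain ⟨d, hdne, hd, rfl⟩ := hx
      exact ⟨_, hg d hdne hd⟩
    | algebraMap c =>
      have h1 : coeffEmb Qb (algebraMap ℚ (LaurentSeries ℚ) c) =
          algebraMap Qb (LaurentSeries Qb) (algebraMap ℚ Qb c) := by
        rw [eq_ratCast, map_ratCast, eq_ratCast, map_ratCast]
      refine ⟨by rw [h1]; exact (Fermat.Agent.F3Dict.FC N).algebraMap_mem _, ?_⟩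
      have h2 := hc (algebraMap ℚ Qb c)
      convert h2 using 2 <;> exact Subtype.ext h1
    | add x y _ _ hx hy =>
      obtain ⟨h1, e1⟩ := hx
      obtain ⟨h2, e2⟩ := hy
      refine ⟨by rw [map_add]; exact add_mem h1 h2, ?_⟩
      have : (⟨coeffEmb Qb (x + y), by rw [map_add]; exact add_mem h1 h2⟩ :
          ↥(Fermat.Agent.F3Dict.FC N)) = ⟨_, h1⟩ + ⟨_, h2⟩ := Subtype.ext (map_add _ _ _)
      rw [this, map_add, map_add, e1, e2]
    | inv x _ hx =>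
      obtain ⟨h1, e1⟩ := hx
      refine ⟨by rw [map_inv₀]; exact inv_mem h1, ?_⟩
      have : (⟨coeffEmb Qb x⁻¹, by rw [map_inv₀]; exact inv_mem h1⟩ :
          ↥(Fermat.Agent.F3Dict.FC N)) = (⟨_, h1⟩ : ↥(Fermat.Agent.F3Dict.FC N))⁻¹ :=
        Subtype.ext (map_inv₀ _ _)
      rw [this, map_inv₀, map_inv₀, e1]
    | mul x y _ _ hx hy =>
      obtain ⟨h1, e1⟩ := hx
      obtain ⟨h2, e2⟩ := hy
      refine ⟨by rw [map_mul]; exact mul_mem h1 h2, ?_⟩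
      have : (⟨coeffEmb Qb (x * y), by rw [map_mul]; exact mul_mem h1 h2⟩ :
          ↥(Fermat.Agent.F3Dict.FC N)) = ⟨_, h1⟩ * ⟨_, h2⟩ := Subtype.ext (map_mul _ _ _)
      rw [this, map_mul, map_mul, e1, e2]
  have hall : ∀ x : LaurentSeries Qb, x ∈ Fermat.Agent.F3Dict.FC N →
      ∃ h : x ∈ Fermat.Agent.F3Dict.FC N, Φ₁ ⟨x, h⟩ = Φ₂ ⟨x, h⟩ := by
    intro x hx
    rw [mem_laurentBaseChange_iff] at hx
    induction hx using Subfield.closure_induction with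
    | mem y hy =>
      rcases hy with ⟨a, rfl⟩ | ⟨z, hz, rfl⟩
      · exact ⟨(Fermat.Agent.F3Dict.FC N).algebraMap_mem _, hc a⟩
      · exact hrat z hz
    | one => exact ⟨one_mem _, by
        have : (⟨1, one_mem _⟩ : ↥(Fermat.Agent.F3Dict.FC N)) = 1 := rfl
        rw [this, map_one, map_one]⟩
    | add x y _ _ hx hy =>
      obtain ⟨h1, e1⟩ := hx
      obtain ⟨h2, e2⟩ := hy
      refine ⟨add_mem h1 h2, ?_⟩
      have : (⟨x + y, add_mem h1 h2⟩ : ↥(Fermat.Agent.F3Dict.FC N)) = ⟨_, h1⟩ + ⟨_, h2⟩ := rfl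
      rw [this, map_add, map_add, e1, e2]
    | neg x _ hx =>
      obtain ⟨h1, e1⟩ := hx
      refine ⟨neg_mem h1, ?_⟩
      have : (⟨-x, neg_mem h1⟩ : ↥(Fermat.Agent.F3Dict.FC N)) = -⟨_, h1⟩ := rfl
      rw [this, map_neg, map_neg, e1]
    | inv x _ hx =>
      obtain ⟨h1, e1⟩ := hx
      refine ⟨inv_mem h1, ?_⟩
      have : (⟨x⁻¹, inv_mem h1⟩ : ↥(Fermat.Agent.F3Dict.FC N)) =
          (⟨_, h1⟩ : ↥(Fermat.Agent.F3Dict.FC N))⁻¹ := rfl
      rw [this, map_inv₀, map_inv₀, e1]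
    | mul x y _ _ hx hy =>
      obtain ⟨h1, e1⟩ := hx
      obtain ⟨h2, e2⟩ := hy
      refine ⟨mul_mem h1 h2, ?_⟩
      have : (⟨x * y, mul_mem h1 h2⟩ : ↥(Fermat.Agent.F3Dict.FC N)) = ⟨_, h1⟩ * ⟨_, h2⟩ := rfl
      rw [this, map_mul, map_mul, e1, e2]
  ext ⟨x, hx⟩
  obtain ⟨_, e⟩ := hall x hx
  exact e


end Fermat.Agent.KroneckerC
end
end MergeWrap_F3_I2_NormC_ConjGensC

section MergeWrap_F3_I2_NormC_ConjGens2C -- from F3/I2/NormC/ConjGens2C.lean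

set_option autoImplicit false
noncomputable section
namespace Fermat.Agent.KroneckerC

open Fermat.Agent.Kronecker
open ModularCurve UpperHalfPlane Fermat.Agent.F3Dict Fermat.Agent.F3Dict.GensExp
open scoped MatrixGroups

theorem scaleL_single {R : Type*} [CommRing R] (z : Rˣ) (n : ℤ) (r : R) :
    scaleL z (HahnSeries.single n r) = HahnSeries.single n (((z ^ n : Rˣ) : R) * r) := by
  ext m
  rw [scaleL_coeff]
  by_cases hm : m = n
  · subst hm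
    rw [HahnSeries.coeff_single_same, HahnSeries.coeff_single_same]
  · rw [HahnSeries.coeff_single_of_ne hm, HahnSeries.coeff_single_of_ne hm, mul_zero]

theorem scaleL_algebraMap (z : Qbˣ) (c : Qb) :
    scaleL z (algebraMap Qb (LaurentSeries Qb) c) = algebraMap Qb (LaurentSeries Qb) c := by
  rw [algebraMap_laurentSeries_eq_single, scaleL_single, zpow_zero, Units.val_one, one_mul]

theorem qExpand_algebraMap (n : ℕ) [NeZero n] (c : Qb) :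
    qExpand Qb n (algebraMap Qb (LaurentSeries Qb) c) = algebraMap Qb (LaurentSeries Qb) c := by
  rw [algebraMap_laurentSeries_eq_single, qExpand_single, mul_zero]

theorem deltaMat_inv_smul_jd' (p q : ℤ) (N d ℓ : ℕ) [NeZero d] [NeZero ℓ] [NeZero (d * ℓ)]
    (hd : d ∣ N) (h : p * ℓ - q * N = 1) :
    ((deltaMat p q N ℓ h)⁻¹ • jd (d * ℓ) : Fun) =
      fun τ => jFun (aff d ℓ 0 (Nat.pos_of_ne_zero (NeZero.ne d))
        (Nat.pos_of_ne_zero (NeZero.ne ℓ)) τ) := by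
  obtain ⟨N', rfl⟩ := hd
  exact deltaMat_inv_smul_jd p q N' d ℓ h

theorem T_mem_Gamma0 (N : ℕ) : ModularGroup.T ∈ CongruenceSubgroup.Gamma0 N := by
  apply EmbFStab.mem_Gamma0_of_dvd
  simp [ModularGroup.T]

/-- Expansion of the generator: `(T^b δ⁻¹) • j_{dℓ}` has the expansion `j_d (ζ^b u^N)`. -/
theorem hasExp_conj_jd (p q : ℤ) (N d ℓ : ℕ) [NeZero N] [NeZero d] [NeZero ℓ] [NeZero (d * ℓ)]
    (hd : d ∣ N) (h : p * ℓ - q * N = 1) (z : Qbˣ)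
    (hz : iota (z : Qb) = Complex.exp (2 * Real.pi * Complex.I / ((N * ℓ : ℕ) : ℂ))) (b : ℕ) :
    HasExp (N * ℓ) ((ModularGroup.T ^ b * (deltaMat p q N ℓ h)⁻¹) • jd (d * ℓ))
      (qExpand Qb N (scaleL ((z⁻¹ ^ N) ^ b) (qExpand Qb d (jqModC Qb)))) := by
  rw [mul_smul, deltaMat_inv_smul_jd' p q N d ℓ hd h]
  have h1 := hasExp_T_pow_smul (N * ℓ) z hz (hasExp_jFun_aff N d ℓ) b
  have e : scaleL (z⁻¹ ^ b) (qExpand Qb (d * N) (jqModC Qb)) =
      qExpand Qb N (scaleL ((z⁻¹ ^ N) ^ b) (qExpand Qb d (jqModC Qb))) := by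
    rw [qExpand_congr (mul_comm d N), ← qExpand_qExpand, scaleL_qExpand, pow_right_comm]
  rw [← e]
  exact h1

end Fermat.Agent.KroneckerC
end
end MergeWrap_F3_I2_NormC_ConjGens2C

section MergeWrap_F3_I2_NormC_ConjExpC -- from F3/I2/NormC/ConjExpC.lean

set_option autoImplicit false
noncomputable section
namespace Fermat.Agent.KroneckerC

open Fermat.Agent.Kronecker
open ModularCurve UpperHalfPlane Fermat.Agent.F3Dict Fermat.Agent.F3Dict.GensExp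
open scoped MatrixGroups

/-- the image of `j(q^{dℓ}) = β (j(q^d))` in `LL (N ℓ)` -/
theorem embHom_heckeBeta_jdBar (N d ℓ : ℕ) [NeZero N] [NeZero d] [NeZero ℓ] [NeZero (d * ℓ)]
    (hd : d ∣ N) :
    EmbFHom.embHom (N * ℓ) (N * ℓ) dvd_rfl (heckeBetaBar Qb N ℓ (jdBar N d hd)) =
      EmbFHom.jdLL (N * ℓ) (d * ℓ) (Nat.mul_dvd_mul_right hd ℓ) := by
  apply EmbFHom.expLL_injective (N * ℓ)
  rw [EmbFHom.expLL_embHom, EmbFHom.expLL_jdLL, coe_heckeBetaBar, coe_jdBar, qExpand_qExpand,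
    qExpand_qExpand]
  exact qExpand_congr (by ring) _

theorem expLL_smul_jdLL (M d : ℕ) [NeZero M] [NeZero d] (hd : d ∣ M) (γ : SL(2, ℤ))
    {a : LaurentSeries Qb} (ha : HasExp M (γ • jd d) a) :
    EmbFHom.expLL M (γ • EmbFHom.jdLL M d hd) = a := by
  unfold EmbFHom.jdLL
  rw [LL.smul_algebraMap, EmbFHom.expLL_algebraMap]
  exact EmbFHom.expFun_eq M _ ha

theorem conjugateExpansions (N ℓ : ℕ) [NeZero N] [NeZero ℓ] (hcop : Nat.Coprime ℓ N) :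
    ConjugateExpansions N ℓ := by
  have hN : 0 < N := Nat.pos_of_ne_zero (NeZero.ne N)
  have hℓ : 0 < ℓ := Nat.pos_of_ne_zero (NeZero.ne ℓ)
  obtain ⟨z0, hz0⟩ := HasExp.exists_iota_eq_exp (N * ℓ)
  have hprimC := Complex.isPrimitiveRoot_exp (N * ℓ) (NeZero.ne (N * ℓ))
  rw [← hz0] at hprimC
  have hprim0 : IsPrimitiveRoot z0 (N * ℓ) := IsPrimitiveRoot.of_map_of_injective (f := iota) hprimC iota_injective
  have hz0ne : z0 ≠ 0 := hprim0.ne_zero (NeZero.ne (N * ℓ))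
  set z : Qbˣ := Units.mk0 z0 hz0ne with hzdef
  have hz : iota (z : Qb) = Complex.exp (2 * Real.pi * Complex.I / ((N * ℓ : ℕ) : ℂ)) := hz0
  have hzprim : IsPrimitiveRoot z (N * ℓ) := IsPrimitiveRoot.coe_units_iff.mp hprim0
  have hζprim : IsPrimitiveRoot (z⁻¹ ^ N) ℓ :=
    (hzprim.inv).pow (Nat.mul_pos hN hℓ) rfl
  obtain ⟨p, q, hpq⟩ : ∃ p q : ℤ, p * ℓ - q * N = 1 := by
    have h1 : IsCoprime (ℓ : ℤ) (N : ℤ) := Nat.isCoprime_iff_coprime.mpr hcop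
    obtain ⟨a, b, hab⟩ := h1
    exact ⟨a, -b, by linear_combination hab⟩
  refine ⟨z⁻¹ ^ N, hζprim, fun b => ModularGroup.T ^ b * (deltaMat p q N ℓ hpq)⁻¹, fun b => ?_,
    fun b _ y => ?_⟩
  · exact mul_mem (pow_mem (T_mem_Gamma0 N) b) (inv_mem (deltaMat_mem_Gamma0 p q N ℓ hpq))
  · set γ := ModularGroup.T ^ b * (deltaMat p q N ℓ hpq)⁻¹ with hγ
    let Φ₁ : ↥(Fermat.Agent.F3Dict.FC N) →+* LaurentSeries Qb :=
      (EmbFHom.expLL (N * ℓ)).toRingHom.comp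
        ((MulSemiringAction.toRingHom SL(2, ℤ) (LL (N * ℓ)) γ).comp
          ((EmbFHom.embHom (N * ℓ) (N * ℓ) dvd_rfl).toRingHom.comp
            (heckeBetaBar Qb N ℓ).toRingHom))
    let Φ₂ : ↥(Fermat.Agent.F3Dict.FC N) →+* LaurentSeries Qb :=
      (qExpand Qb N).comp ((scaleL ((z⁻¹ ^ N) ^ b)).comp (Fermat.Agent.F3Dict.FC N).val.toRingHom)
    have key : Φ₁ = Φ₂ := by
      apply ringHom_ext_FBar
      · intro c
        show EmbFHom.expLL (N * ℓ) (γ • EmbFHom.embHom (N * ℓ) (N * ℓ) dvd_rfl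
            (heckeBetaBar Qb N ℓ (algebraMap Qb _ c))) =
          qExpand Qb N (scaleL ((z⁻¹ ^ N) ^ b) (algebraMap Qb (LaurentSeries Qb) c))
        rw [AlgHom.commutes, AlgHom.commutes, Algebra.algebraMap_eq_smul_one, smul_comm, smul_one,
          ← Algebra.algebraMap_eq_smul_one, AlgHom.commutes, scaleL_algebraMap, qExpand_algebraMap]
      · intro d hdne hd
        show EmbFHom.expLL (N * ℓ) (γ • EmbFHom.embHom (N * ℓ) (N * ℓ) dvd_rfl
            (heckeBetaBar Qb N ℓ (jdBar N d hd))) =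
          qExpand Qb N (scaleL ((z⁻¹ ^ N) ^ b) ((jdBar N d hd : ↥(Fermat.Agent.F3Dict.FC N)) :
            LaurentSeries Qb))
        rw [embHom_heckeBeta_jdBar, coe_jdBar]
        exact expLL_smul_jdLL _ _ _ _ (hasExp_conj_jd p q N d ℓ hd hpq z hz b)
    exact RingHom.congr_fun key y

end Fermat.Agent.KroneckerC
end
end MergeWrap_F3_I2_NormC_ConjExpC

section MergeWrap_F3_I2_Dict3Final -- from F3/I2/Dict3Final.lean

set_option autoImplicit false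

namespace Fermat.Agent.F3I2

/-- The **norm product formula** over `ℂ`:
`(Norm_{F_{Nℓ}/F_N} (y(q^ℓ)))(q^ℓ) = y(q^{ℓ²}) · ∏_{b<ℓ} y(ζ_ℓ^b q)` for `ℓ` prime, `ℓ ∤ N`. -/
theorem normProductFormulaC (N ℓ : ℕ) [NeZero N] [NeZero ℓ] (hℓ : ℓ.Prime) (hℓN : ¬ ℓ ∣ N) :
    NormProductFormulaC N ℓ :=
  dict3_normProductFormulaC_of N ℓ
    (Fermat.Agent.KroneckerC.normProductFormula_of_conjugateExpansions N ℓ hℓ hℓN
      (Fermat.Agent.KroneckerC.conjugateExpansions N ℓ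
        ((Nat.Prime.coprime_iff_not_dvd hℓ).mpr hℓN)))

/-- **(D3)**: for `ℓ` prime, `ℓ ∤ N`, and `x = A / B`:
`Norm_{F_{Nℓ}/F_N} (x(q^ℓ)) = ∏_i (A ∣ α_i) / ∏_i (B ∣ α_i)`. -/
theorem dictD3 (N ℓ : ℕ) [NeZero N] [NeZero ℓ] (hℓ : ℓ.Prime) (hℓN : ¬ ℓ ∣ N) : DictD3 N ℓ :=
  dictD3_of_normProductFormula N ℓ (normProductFormulaC N ℓ hℓ hℓN)

end Fermat.Agent.F3I2
end MergeWrap_F3_I2_Dict3Final

section MergeWrap_F3_I2_Final -- from F3/I2/Final.lean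

set_option autoImplicit false
set_option linter.style.haveILetI false

noncomputable section

namespace Fermat.Agent.F3I2

open UpperHalfPlane CongruenceSubgroup ModularCurve AlgebraicCurve
open Fermat.Agent.F3EC

/-- **(K1)**: the family `κ_n : Hom_par(Γ₀(N), ℤ) → J₀(N)(ℚ̄)[n]`. -/
theorem kappaAll (N : ℕ) [NeZero N] :
    ∃ κ : (n : ℕ) → HomPar N →ₗ[ℤ] Fermat.Agent.F3.Jtors N n,
      (∀ n : ℕ, 0 < n → ∀ c : HomPar N, κ n c = 0 → ∃ c' : HomPar N, c = (n : ℤ) • c') ∧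
      (∀ (n d : ℕ) (c : HomPar N), 0 < n → 0 < d →
        (d : ℤ) • ((κ (d * n) c : Fermat.Agent.F3.Jtors N (d * n)) : JZero N) =
          (κ n c : JZero N)) ∧
      (∀ (n : ℕ) (ℓ : Nat.Primes), ¬ (ℓ : ℕ) ∣ N → ∀ c : HomPar N,
        κ n (heckeHom N ℓ c) = Fermat.Agent.F3.heckeTors N n ℓ (κ n c)) := by
  refine exists_kappa_of_bc (Fermat.Agent.F3RatioCusp.dictD2a N) (Fermat.Agent.F3Charts.dictHPD N)
    (Fermat.Agent.F3Charts.dictConst N) (fun ℓ _ => ?_) (fun ℓ hℓN => ?_) (descBc N)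
    (descBc_injective N) (fun n hn x' hx' => ?_) (fun ℓ _ n _ y _ => ?_)
  · haveI : NeZero (ℓ : ℕ) := ⟨ℓ.2.ne_zero⟩
    exact Fermat.Agent.HeckeInputs.hi_heckeInputsAlong_complex N ℓ
  · haveI : NeZero (ℓ : ℕ) := ⟨ℓ.2.ne_zero⟩
    exact dictD3 N ℓ ℓ.2 hℓN
  · obtain ⟨x, hx, -⟩ := descBc_surjective_torsion N n hn x' hx'
    exact ⟨x, hx⟩
  · haveI : NeZero (ℓ : ℕ) := ⟨ℓ.2.ne_zero⟩
    exact descBc_hecke N ℓ y

/-- **(A3)** `F3.KappaModP N`. -/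
theorem kappaModP (N : ℕ) [NeZero N] : Fermat.Agent.F3.KappaModP N := by
  intro p hp
  obtain ⟨κ, hker, -, hT⟩ := kappaAll N
  refine ⟨κ p, fun c hc => ?_, fun ℓ hℓ c => ?_⟩
  · obtain ⟨c', hc'⟩ := hker p hp.pos c hc
    exact ⟨c', by rw [hc', natCast_zsmul]⟩
  · exact hT p ℓ (fun h => hℓ (Dvd.dvd.mul_right h p)) c

end Fermat.Agent.F3I2
end
end MergeWrap_F3_I2_Final
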